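import Fermat.Agent.MordellSurfaceDensity.Fibres
import Fermat.Agent.Root.SummaryRealDensity
import Mathlib.Topology.Order.IntermediateValue
import Mathlib.Topology.Algebra.Polynomial

/-!
# Real and Zariski density on `y² = x³ + g(t)³ + h(t)²`

Every fibre has one real component; a polynomial of degree below two in `y` vanishing at the points
`(x, ± y)` of infinitely many fibres is zero.
-/

set_option autoImplicit false
set_option linter.style.haveILetI false

noncomputable section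

open Polynomial WeierstrassCurve

namespace FA.MordellSurfaceDensity

/-- Real density on a fibre. -/
theorem fibre_dense {k : ℚ} (hk : k ≠ 0)
    (hinf : {P : ℚ × ℚ | P.2 ^ 2 = P.1 ^ 3 + k}.Infinite) {x y : ℝ} (h : y ^ 2 = x ^ 3 + k)
    {ε : ℝ} (hε : 0 < ε) :
    {P : ℚ × ℚ | P.2 ^ 2 = P.1 ^ 3 + k ∧ |(P.1 : ℝ) - x| < ε ∧ |(P.2 : ℝ) - y| < ε}.Infinite := by
  classical
  haveI : (⟨0, 0, 0, 0, k⟩ : WeierstrassCurve ℚ).IsElliptic := ⟨isUnit_iff_ne_zero.2 (by
    simp [WeierstrassCurve.Δ, WeierstrassCurve.b₂, WeierstrassCurve.b₄, WeierstrassCurve.b₆,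
      WeierstrassCurve.b₈, hk])⟩
  haveI : Infinite {P : ℚ × ℚ | P.2 ^ 2 = P.1 ^ 3 + k} := hinf.to_subtype
  haveI : Infinite (⟨0, 0, 0, 0, k⟩ : WeierstrassCurve ℚ).toAffine.Point := by
    refine Infinite.of_injective (fun P : {P : ℚ × ℚ | P.2 ^ 2 = P.1 ^ 3 + k} =>
      .some P.1.1 P.1.2 (Affine.equation_iff_nonsingular.mp ((Affine.equation_iff _ _).mpr (by
        simp; exact P.2)))) fun P Q e => ?_
    simp only [Affine.Point.some.injEq] at e
    exact Subtype.ext (Prod.ext e.1 e.2)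
  refine (FA.Summary.rationalPoints_dense_all (A := 0) (B := k) (x := x) (y := y)
    (by simpa using sq_pos_of_ne_zero hk) (by rw [h]; simp) hε).mono fun P hP => ?_
  refine ⟨?_, hP.2⟩
  simpa using hP.1

variable {g h : ℚ[X]}

theorem real_dense (hg : g ≠ 0) (hgh : ∀ c, h ^ 2 ≠ C c * g ^ 3) {t x y : ℝ}
    (he : y ^ 2 = x ^ 3 + (aeval t g ^ 3 + aeval t h ^ 2)) {ε : ℝ} (hε : 0 < ε) :
    {P : ℚ × ℚ × ℚ | P.2.2 ^ 2 = P.2.1 ^ 3 + (g.eval P.1 ^ 3 + h.eval P.1 ^ 2) ∧
      |(P.1 : ℝ) - t| < ε ∧ |(P.2.1 : ℝ) - x| < ε ∧ |(P.2.2 : ℝ) - y| < ε}.Infinite := by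
  classical
  have hK : g ^ 3 + h ^ 2 ≠ 0 := fun e => hgh (-1) (by
    rw [map_neg, map_one]; linear_combination e)
  set q : ℝ → ℝ := fun T => y ^ 2 - (aeval T g ^ 3 + aeval T h ^ 2) with hq
  have hqt : q t = x ^ 3 := by simp only [hq]; linear_combination he
  have hmono := Odd.strictMono_pow (R := ℝ) (by decide : Odd 3)
  have hmem : q t ∈ Set.Ioo ((x - ε / 2) ^ 3) ((x + ε / 2) ^ 3) := by
    rw [hqt]; exact ⟨hmono (by linarith), hmono (by linarith)⟩
  obtain ⟨δ, hδ, hball⟩ := Metric.mem_nhds_iff.1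
    ((show Continuous q by fun_prop).continuousAt (isOpen_Ioo.mem_nhds hmem))
  set η := min δ ε
  have hη : 0 < η := lt_min hδ hε
  obtain ⟨a, ha₁, ha₂⟩ := exists_rat_btwn (show t - η < t by linarith)
  obtain ⟨b, hb₁, hb₂⟩ := exists_rat_btwn (show t < t + η by linarith)
  have hab : a < b := by exact_mod_cast ha₂.trans hb₁
  obtain ⟨t', ⟨hta, htb⟩, hnot⟩ := ((Set.Ioo_infinite hab).sdiff
    ((finite_poor hg hgh).union (finite_setOfPred_isRoot hK))).nonempty
  simp only [Set.mem_union, poorParameters, Set.mem_ofPred_eq, not_or, not_not, IsRoot, eval_add,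
    eval_pow] at hnot
  have := Rat.cast_lt (K := ℝ).2 hta
  have := Rat.cast_lt (K := ℝ).2 htb
  have htt : |(t' : ℝ) - t| < η := abs_lt.2 ⟨by linarith, by linarith⟩
  have hm := hball (show (t' : ℝ) ∈ Metric.ball t δ by
    rw [Metric.mem_ball, Real.dist_eq]; exact htt.trans_le (min_le_left _ _))
  simp only [Set.mem_preimage] at hm
  obtain ⟨x', hx', hx'e⟩ := intermediate_value_Ioo (show x - ε / 2 ≤ x + ε / 2 by linarith)
    (f := fun u : ℝ => u ^ 3) (by fun_prop) hm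
  simp only at hx'e
  have hcast : ∀ p : ℚ[X], aeval (t' : ℝ) p = ((p.eval t' : ℚ) : ℝ) := fun p => by
    rw [← eq_ratCast (algebraMap ℚ ℝ) t', aeval_algebraMap_apply, coe_aeval_eq_eval, eq_ratCast]
  refine Set.infinite_of_injOn_mapsTo (f := fun P : ℚ × ℚ => (t', P.1, P.2)) ?_ ?_
    (fibre_dense hnot.2 hnot.1 (x := x') (y := y) (by
      rw [hx'e]; simp only [hq, hcast]; push_cast; ring) (half_pos hε))
  · intro P _ Q _ e
    simpa using e
  · rintro ⟨u, w⟩ ⟨hP, hu, hw⟩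
    simp only at hu hw
    refine ⟨hP, htt.trans_le (min_le_right _ _), ?_, by show |(w : ℝ) - y| < ε; linarith⟩
    show |(u : ℝ) - x| < ε
    rw [abs_lt] at hu ⊢
    constructor <;> linarith [hu.1, hu.2, hx'.1, hx'.2]

/-- Evaluation at `t`, then `x`, then `y`. -/
def evalTXY (t x y : ℚ) (G : ℚ[X][X][X]) : ℚ :=
  ((G.map (mapRingHom (evalRingHom t))).map (evalRingHom x)).eval y

/-- The equation in nested variables. -/
def surfacePoly (g h : ℚ[X]) : ℚ[X][X][X] :=
  X ^ 2 - C (X ^ 3 + C (g ^ 3 + h ^ 2))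

theorem surfacePoly_monic (g h : ℚ[X]) : (surfacePoly g h).Monic :=
  monic_X_pow_sub_C _ two_ne_zero

theorem zariski_dense (hg : g ≠ 0) (hgh : ∀ c, h ^ 2 ≠ C c * g ^ 3) {G : ℚ[X][X][X]}
    (hG : ∀ t x y : ℚ, y ^ 2 = x ^ 3 + (g.eval t ^ 3 + h.eval t ^ 2) → evalTXY t x y G = 0) :
    surfacePoly g h ∣ G := by
  classical
  rw [← modByMonic_eq_zero_iff_dvd (surfacePoly_monic g h)]
  set r := G %ₘ surfacePoly g h with hr
  have hdeg : r.natDegree ≤ 1 := by
    have h1 := natDegree_modByMonic_lt G (surfacePoly_monic g h) (fun e => by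
      have := congrArg natDegree e
      rw [surfacePoly, natDegree_X_pow_sub_C, natDegree_one] at this
      omega)
    rw [← hr, surfacePoly, natDegree_X_pow_sub_C] at h1
    omega
  obtain ⟨B, A, hrAB⟩ : ∃ B A, r = C B * X + C A := ⟨_, _, eq_X_add_C_of_natDegree_le_one hdeg⟩
  have hval : ∀ t x y : ℚ, y ^ 2 = x ^ 3 + (g.eval t ^ 3 + h.eval t ^ 2) →
      (B.map (evalRingHom t)).eval x * y + (A.map (evalRingHom t)).eval x = 0 := by
    intro t x y e
    have := hG t x y e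
    rw [evalTXY, ← modByMonic_add_div G (surfacePoly g h), ← hr, hrAB] at this
    simp [surfacePoly, e] at this
    exact this
  have hgood : ∀ t, t ∉ poorParameters g h →
      A.map (evalRingHom t) = 0 ∧ B.map (evalRingHom t) = 0 := by
    intro t ht
    simp only [poorParameters, Set.mem_ofPred_eq, not_not] at ht
    have hx : {x : ℚ | ∃ y, y ≠ 0 ∧ y ^ 2 = x ^ 3 + (g.eval t ^ 3 + h.eval t ^ 2)}.Infinite := by
      intro hfin
      have hne : ∀ x : ℚ, (X ^ 2 - C (x ^ 3 + (g.eval t ^ 3 + h.eval t ^ 2)) : ℚ[X]) ≠ 0 :=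
        fun x => X_pow_sub_C_ne_zero (by norm_num) _
      refine ht (((hfin.union (finite_setOfPred_isRoot (p := (X : ℚ[X]) ^ 3 +
        C (g.eval t ^ 3 + h.eval t ^ 2)) (monic_X_pow_add_C _ (by norm_num)).ne_zero)).biUnion
          fun x _ => (finite_setOfPred_isRoot (hne x)).image fun y => (x, y)).subset ?_)
      rintro ⟨x, y⟩ hP
      simp only [Set.mem_ofPred_eq] at hP
      refine Set.mem_biUnion ?_ ⟨y, by simp [IsRoot, hP], rfl⟩
      by_cases hy : y = 0
      · exact Or.inr (by simp [IsRoot]; rw [← hP, hy]; ring)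
      · exact Or.inl ⟨y, hy, hP⟩
    have hboth : ∀ x ∈ {x : ℚ | ∃ y, y ≠ 0 ∧ y ^ 2 = x ^ 3 + (g.eval t ^ 3 + h.eval t ^ 2)},
        (A.map (evalRingHom t)).eval x = 0 ∧ (B.map (evalRingHom t)).eval x = 0 := by
      rintro x ⟨y, hy, e⟩
      have e₁ := hval t x y e
      have e₂ := hval t x (-y) (by rw [neg_sq]; exact e)
      exact ⟨by linarith, (mul_eq_zero.1 (show (B.map (evalRingHom t)).eval x * y = 0 by
        linarith)).resolve_right hy⟩
    exact ⟨eq_zero_of_infinite_isRoot _ (hx.mono fun x hx' => (hboth x hx').1),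
      eq_zero_of_infinite_isRoot _ (hx.mono fun x hx' => (hboth x hx').2)⟩
  have hzero : ∀ D : ℚ[X][X],
      (∀ t, t ∉ poorParameters g h → D.map (evalRingHom t) = 0) → D = 0 := by
    intro D hD
    ext1 n
    rw [coeff_zero]
    refine eq_zero_of_infinite_isRoot _ ((finite_poor hg hgh).infinite_compl.mono fun t ht => ?_)
    have := congrArg (fun p : ℚ[X] => p.coeff n) (hD t ht)
    simpa using this
  rw [hrAB, hzero A fun t ht => (hgood t ht).1, hzero B fun t ht => (hgood t ht).2]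
  simp

end FA.MordellSurfaceDensity
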