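import Fermat.Agent.ThreeRationalCubes.Points
import Mathlib.Algebra.Polynomial.Roots

/-!
# Fibres of `y² = x³ + g(t)³ + h(t)²`

The point `(-g t, h t)` is torsion only where `h(t)² / g(t)³` lies in a finite set or `g h k`
vanishes.
-/

set_option autoImplicit false

noncomputable section

open Polynomial
open FA.ThreeRationalCubes (infinite_mordell)

namespace FA.MordellSurfaceDensity

variable {g h : ℚ[X]}

/-- The parameters without infinitely many points. -/
def poorParameters (g h : ℚ[X]) : Set ℚ :=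
  {t | ¬{P : ℚ × ℚ | P.2 ^ 2 = P.1 ^ 3 + (g.eval t ^ 3 + h.eval t ^ 2)}.Infinite}

theorem combination_ne_zero (hgh : ∀ c, h ^ 2 ≠ C c * g ^ 3) {p : ℚ[X]} (hp : p ≠ 0) :
    {t : ℚ | g.eval t ≠ 0 ∧ p.eval (h.eval t ^ 2 / g.eval t ^ 3) = 0}.Finite := by
  refine ((finite_setOfPred_isRoot hp).biUnion fun c _ => finite_setOfPred_isRoot
    (sub_ne_zero.2 (hgh c))).subset ?_
  rintro t ⟨ht, hpt⟩
  refine Set.mem_biUnion (show h.eval t ^ 2 / g.eval t ^ 3 ∈ {c | IsRoot p c} from hpt) ?_
  show IsRoot _ t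
  have : g.eval t ^ 3 ≠ 0 := pow_ne_zero _ ht
  simp
  field_simp
  ring

theorem finite_poor (hg : g ≠ 0) (hgh : ∀ c, h ^ 2 ≠ C c * g ^ 3) :
    (poorParameters g h).Finite := by
  have hh : h ≠ 0 := fun e => hgh 0 (by simp [e])
  have hK : g ^ 3 + h ^ 2 ≠ 0 := fun e => hgh (-1) (by
    rw [map_neg, map_one]; linear_combination e)
  have h9 : C 9 * g ^ 3 + C 8 * h ^ 2 ≠ 0 := fun e => hgh (-9 / 8) (by
    have e8 : C (8 : ℚ) * C (-9 / 8) = C (-9) := by rw [← C_mul]; norm_num
    refine mul_left_cancel₀ (C_ne_zero.2 (by norm_num : (8 : ℚ) ≠ 0)) ?_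
    rw [← mul_assoc, e8, map_neg]
    linear_combination e)
  set p : ℚ[X] := (C 9 + C 8 * X) ^ 3 + C 256 * (C 1 + X) * X ^ 3 with hp
  have hp0 : p ≠ 0 := fun e => by
    have := congrArg (eval 0) e
    simp [hp] at this
  refine ((((finite_setOfPred_isRoot hg).union (finite_setOfPred_isRoot hh)).union
    ((finite_setOfPred_isRoot hK).union (finite_setOfPred_isRoot h9))).union
      (combination_ne_zero hgh hp0)).subset fun t ht => ?_
  by_contra hne
  simp only [Set.mem_union, Set.mem_ofPred_eq, IsRoot, eval_add, eval_mul, eval_pow, eval_C,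
    not_or, not_and] at hne
  obtain ⟨⟨⟨g0, h0⟩, k0, n9⟩, hcomb⟩ := hne
  refine ht (infinite_mordell (x := -g.eval t) (y := h.eval t) k0 h0 (by ring) ?_ ?_)
  · refine mul_ne_zero (neg_ne_zero.2 g0) fun e => n9 (by linear_combination -e)
  · intro e
    refine hcomb g0 ?_
    simp [hp]
    field_simp
    linear_combination e

end FA.MordellSurfaceDensity
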